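import Mathlib.RingTheory.SimpleModule.Basic
import Mathlib.LinearAlgebra.Eigenspace.Triangularizable
import Mathlib.LinearAlgebra.Matrix.ToLin
import Mathlib.LinearAlgebra.Dimension.Free
import Mathlib.Algebra.Algebra.Subalgebra.Tower
import Mathlib.FieldTheory.IsAlgClosed.Basic

/-!
# An irreducible constituent of a representation spans its matrix algebra
-/

set_option autoImplicit false

noncomputable section

open Matrix

namespace Fermat.Agent.DeligneSerre

variable {k : Type*} [Field k] [IsAlgClosed k] {G : Type*} [Monoid G]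

/-- Burnside's theorem. -/
theorem span_range_eq_top_of_simple {V : Type*} [AddCommGroup V] [Module k V]
    [FiniteDimensional k V] [Nontrivial V] (σ : G →* Module.End k V)
    (hmin : ∀ W : Submodule k V, (∀ g, ∀ w ∈ W, σ g w ∈ W) → W = ⊥ ∨ W = ⊤) :
    Submodule.span k (Set.range σ) = ⊤ := by
  classical
  set R := Algebra.adjoin k (Set.range σ) with hR
  have hclos : (Submonoid.closure (Set.range σ) : Set (Module.End k V)) = Set.range σ := by
    rw [← MonoidHom.coe_mrange, Submonoid.closure_eq]
  have hRspan : Subalgebra.toSubmodule R = Submodule.span k (Set.range σ) := by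
    rw [hR, Algebra.adjoin_eq_span, hclos]
  have hσ : ∀ g, σ g ∈ R := fun g => Algebra.subset_adjoin ⟨g, rfl⟩
  have htriv : ∀ W : Submodule R V, W = ⊥ ∨ W = ⊤ := by
    intro W
    let W' : Submodule k V :=
      { carrier := W
        add_mem' := fun h h' => W.add_mem h h'
        zero_mem' := W.zero_mem
        smul_mem' := fun c v hv => by
          have h : (algebraMap k R c) • v ∈ W := W.smul_mem (algebraMap k R c) hv
          exact h }
    rcases hmin W' fun g w hw => W.smul_mem (⟨σ g, hσ g⟩ : R) hw with h | h
    · left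
      refine Submodule.eq_bot_iff _ |>.2 fun x hx => ?_
      have : x ∈ W' := hx
      rwa [h, Submodule.mem_bot] at this
    · right
      refine eq_top_iff.2 fun x _ => ?_
      have : x ∈ W' := h ▸ Submodule.mem_top
      exact this
  have : Nontrivial (Submodule R V) := ⟨⊥, ⊤, fun h => by
    obtain ⟨v, hv⟩ := exists_ne (0 : V)
    exact hv (by rw [← Submodule.mem_bot R, h]; exact Submodule.mem_top)⟩
  have : IsSimpleOrder (Submodule R V) := ⟨htriv⟩
  have : IsSimpleModule R V := ⟨⟩
  -- Schur
  have hschur : ∀ φ : Module.End R V, ∃ c : k, ∀ v, φ v = c • v := by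
    intro φ
    let φk : Module.End k V :=
      { toFun := φ
        map_add' := map_add φ
        map_smul' := fun c v => φ.map_smul (algebraMap k R c) v }
    obtain ⟨c, hc⟩ := Module.End.exists_eigenvalue φk
    obtain ⟨v₀, hv₀⟩ := hc.exists_hasEigenvector
    let E : Submodule R V :=
      { carrier := {v | φ v = c • v}
        add_mem' := fun {a b} ha hb => by
          show φ (a + b) = c • (a + b)
          rw [map_add, ha, hb, smul_add]
        zero_mem' := by simp
        smul_mem' := fun r v hv => by
          show φ (r • v) = c • (r • v)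
          rw [φ.map_smul, hv]
          exact (r : Module.End k V).map_smul c v }
    refine ⟨c, fun v => ?_⟩
    rcases htriv E with h | h
    · have : v₀ ∈ E := hv₀.apply_eq_smul
      rw [h, Submodule.mem_bot] at this
      exact absurd this hv₀.2
    · exact (show v ∈ E from h ▸ Submodule.mem_top)
  rw [← hRspan, eq_top_iff]
  rintro f -
  let fR : Module.End (Module.End R V) V :=
    { toFun := f
      map_add' := map_add f
      map_smul' := fun φ v => by
        obtain ⟨c, hc⟩ := hschur φ
        show f (φ v) = φ (f v)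
        rw [hc, hc, map_smul] }
  set b := Module.finBasis k V
  obtain ⟨r, hr⟩ := jacobson_density fR (Finset.univ.image b)
  have : f = (r : Module.End k V) :=
    b.ext fun i => hr (b i) (Finset.mem_image_of_mem _ (Finset.mem_univ i))
  exact this ▸ r.2

/-- A nonzero invariant subspace contains an irreducible one, in coordinates. -/
theorem exists_constituent {n : Type*} [Fintype n] [DecidableEq n] (ρ : G →* Matrix n n k)
    (V : Submodule k (n → k)) (hV : V ≠ ⊥) (hinv : ∀ g, ∀ v ∈ V, ρ g *ᵥ v ∈ V) :
    ∃ (d : ℕ) (σ : G →* Matrix (Fin d) (Fin d) k) (ι : (Fin d → k) →ₗ[k] (n → k)),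
      0 < d ∧ Function.Injective ι ∧ (∀ x, ι x ∈ V) ∧ (∀ g x, ι (σ g *ᵥ x) = ρ g *ᵥ ι x) ∧
      Submodule.span k (Set.range σ) = ⊤ := by
  classical
  have hex : ∃ e, ∃ W : Submodule k (n → k), W ≠ ⊥ ∧ W ≤ V ∧ (∀ g, ∀ v ∈ W, ρ g *ᵥ v ∈ W) ∧
      Module.finrank k W = e := ⟨_, V, hV, le_rfl, hinv, rfl⟩
  obtain ⟨W, hW0, hWV, hWinv, hWd⟩ := Nat.find_spec hex
  have : Nontrivial W := Submodule.nontrivial_iff_ne_bot.2 hW0
  let σE : G →* Module.End k W :=
    { toFun := fun g => (Matrix.toLin' (ρ g)).restrict fun v hv => by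
        rw [Matrix.toLin'_apply]; exact hWinv g v hv
      map_one' := LinearMap.ext fun v => Subtype.ext (by simp)
      map_mul' := fun g h => LinearMap.ext fun v => Subtype.ext (by simp [Matrix.mulVec_mulVec]) }
  have hspanE := span_range_eq_top_of_simple σE fun U hU => by
    by_cases hU0 : U = ⊥
    · exact Or.inl hU0
    refine Or.inr ?_
    have hne : U.map W.subtype ≠ ⊥ := fun h =>
      hU0 (Submodule.map_injective_of_injective W.subtype_injective
        (h.trans (Submodule.map_bot _).symm))
    have hle : U.map W.subtype ≤ W := Submodule.map_subtype_le W U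
    have hi : ∀ g, ∀ v ∈ U.map W.subtype, ρ g *ᵥ v ∈ U.map W.subtype := by
      rintro g _ ⟨u, hu, rfl⟩
      exact ⟨σE g u, hU g u hu, by simp [σE]⟩
    have hmin := Nat.find_min' hex ⟨_, hne, hle.trans hWV, hi, rfl⟩
    rw [← hWd, Submodule.finrank_map_subtype_eq] at hmin
    exact Submodule.eq_top_of_finrank_eq (le_antisymm (Submodule.finrank_le U) hmin)
  set b := Module.finBasis k W
  let e := LinearMap.toMatrixAlgEquiv b
  refine ⟨Module.finrank k W, (e.toAlgHom.toRingHom.toMonoidHom).comp σE,
    W.subtype.comp (b.equivFun.symm : (Fin _ → k) →ₗ[k] W), Module.finrank_pos,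
    W.subtype_injective.comp b.equivFun.symm.injective, fun x => hWV (Subtype.prop _), ?_, ?_⟩
  · intro g x
    show (b.equivFun.symm (LinearMap.toMatrixAlgEquiv b (σE g) *ᵥ x) : n → k) =
      ρ g *ᵥ (b.equivFun.symm x : n → k)
    have h : LinearMap.toMatrixAlgEquiv b (σE g) *ᵥ x = b.equivFun (σE g (b.equivFun.symm x)) := by
      obtain ⟨w, rfl⟩ := b.equivFun.surjective x
      rw [LinearEquiv.symm_apply_apply, Module.Basis.equivFun_apply, Module.Basis.equivFun_apply]
      exact LinearMap.toMatrix_mulVec_repr b b (σE g) w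
    rw [h, LinearEquiv.symm_apply_apply]
    exact Matrix.toLin'_apply (ρ g) _
  · rw [MonoidHom.coe_comp, Set.range_comp]
    show Submodule.span k (e.toLinearMap '' Set.range σE) = ⊤
    rw [← Submodule.map_span, hspanE, Submodule.map_top, LinearMap.range_eq_top]
    exact e.surjective

end Fermat.Agent.DeligneSerre
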