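import Fermat.Agent.Arith.RootsOfUnity
import Fermat.Prelude.Def_GaloisRep_Residual
import Mathlib.RingTheory.RootsOfUnity.EnoughRootsOfUnity

/-!
# The cyclotomic character modulo `n` as a character of finite level
-/

set_option autoImplicit false

noncomputable section

namespace Fermat.Agent.DeligneSerre

open Fermat.Agent.Arith

variable (n : ℕ) [NeZero n]

theorem natCard_mu : Nat.card (rootsOfUnity n QBar) = n :=
  HasEnoughRootsOfUnity.natCard_rootsOfUnity QBar n

/-- The cyclotomic character. -/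
def cycN : GQ →* (ZMod n)ˣ where
  toFun g := modularCyclotomicCharacter QBar (natCard_mu n) (g : QBar ≃+* QBar)
  map_one' := map_one (modularCyclotomicCharacter QBar (natCard_mu n))
  map_mul' g h := map_mul (modularCyclotomicCharacter QBar (natCard_mu n))
    (g : QBar ≃+* QBar) (h : QBar ≃+* QBar)

variable {n}

theorem cycN_frobenius {p : ℕ} (hp : p.Prime) {A : ValuationSubring QBar} (hA : A.LiesOverPrime p)
    {σ : GQ} (hσ : A.IsFrobeniusAt σ p) (hpn : ¬ p ∣ n) :
    ((cycN n σ : (ZMod n)ˣ) : ZMod n) = p :=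
  modularCyclotomicCharacter_frobenius hA hp hσ (natCard_mu n) hpn

theorem cycN_inertia {p : ℕ} (hp : p.Prime) {A : ValuationSubring QBar} (hA : A.LiesOverPrime p)
    {σ : GQ} (hσ : σ ∈ A.inertiaSubgroupIn ℚ) (hpn : ¬ p ∣ n) : cycN n σ = 1 :=
  modularCyclotomicCharacter_inertia hA hp hσ (natCard_mu n) hpn

variable (n)

theorem cycN_finite_level : GaloisFactorsThroughFiniteLevel (cycN n) := by
  obtain ⟨ζ, hζ⟩ := HasEnoughRootsOfUnity.exists_primitiveRoot QBar n
  refine ⟨IntermediateField.adjoin ℚ {ζ}, IntermediateField.adjoin.finiteDimensional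
    ((hζ.isIntegral (NeZero.pos n)).tower_top), fun σ hσ => Units.ext ?_⟩
  show ((modularCyclotomicCharacter QBar (natCard_mu n) (σ : QBar ≃+* QBar) : (ZMod n)ˣ) :
    ZMod n) = ((1 : (ZMod n)ˣ) : ZMod n)
  rw [Units.val_one, ← Nat.cast_one, modularCyclotomicCharacter_eq_natCast (natCard_mu n) (c := 1)]
  intro t ht
  obtain ⟨i, -, rfl⟩ := hζ.eq_pow_of_pow_eq_one ht
  rw [pow_one, map_pow]
  exact congrArg (· ^ i) (hσ ζ (IntermediateField.mem_adjoin_simple_self ℚ ζ))

end Fermat.Agent.DeligneSerre
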