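import Fermat.Agent.DeligneSerre.Interface
import Fermat.Agent.DeligneSerre.Periods
import Fermat.Agent.DeligneSerre.Quadratic
import Fermat.Agent.DeligneSerre.Reps.Constituent
import Fermat.Agent.DeligneSerre.Reps.Cyc
import Fermat.Agent.Arith.Chebotarev.Main

/-!
# The residual representations from the congruent forms and the Galois modules
-/

set_option autoImplicit false

noncomputable section

open Matrix CongruenceSubgroup ModularFormClass
open Fermat.Agent.Arith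
open scoped MatrixGroups

namespace Fermat.Agent.DeligneSerre

open Fermat.Agent.RT.GammaH Fermat.Agent.Gamma0

variable {N : ℕ} [NeZero N] {k : Type} [Field k]

/-- `φ ∘ ε ∘` the cyclotomic character. -/
def epsChar (ε : DirichletCharacter ℂ N) (φ : ZBar →+* k) : GQ →* k where
  toFun g := φ ⟨ε ((cycN N g : (ZMod N)ˣ) : ZMod N), isIntegral_character ε _⟩
  map_one' := by
    refine Eq.trans (congrArg φ (Subtype.ext ?_)) (map_one φ)
    simp
  map_mul' g h := by
    refine Eq.trans (congrArg φ (Subtype.ext ?_)) (map_mul φ _ _)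
    simp

theorem epsChar_frobenius {ε : DirichletCharacter ℂ N} {φ : ZBar →+* k} {p : ℕ} (hp : p.Prime)
    (hpN : ¬ p ∣ N) {A : ValuationSubring QBar} (hA : A.LiesOverPrime p) {σ : GQ}
    (hσ : A.IsFrobeniusAt σ p) {y : ZBar} (hy : (y : ℂ) = ε (p : ZMod N)) :
    epsChar ε φ σ = φ y :=
  congrArg φ (Subtype.ext (by rw [hy, ← cycN_frobenius hp hA hσ hpN]))

theorem epsChar_inertia {ε : DirichletCharacter ℂ N} {φ : ZBar →+* k} {p : ℕ} (hp : p.Prime)
    (hpN : ¬ p ∣ N) {A : ValuationSubring QBar} (hA : A.LiesOverPrime p) {σ : GQ}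
    (hσ : σ ∈ A.inertiaSubgroupIn ℚ) : epsChar ε φ σ = 1 := by
  have h : cycN N σ = 1 := cycN_inertia hp hA hσ hpN
  refine Eq.trans (congrArg φ (Subtype.ext ?_)) (map_one φ)
  simp [h]

/-- An `ℓ`-adic eigenvector gives the common eigenspace. -/
theorem exists_eigenspace {M ℓ : ℕ} [NeZero M] [Fact ℓ.Prime] [CharP k ℓ] {v : Additive
    (gammaH M (Subgroup.zpowers (-1))) →+ k} (hv0 : v ≠ 0)
    (hv : v ∈ ellParHoms (gammaH M (Subgroup.zpowers (-1))) k) (c : GoodOp M → k)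
    (hc : ∀ i, goodOp k i v = c i • v) :
    ∃ V : Submodule k (Fin (homRank M) → k), V ≠ ⊥ ∧
      (∀ i, ∀ x ∈ V, (opMat i).map (Int.cast : ℤ → k) *ᵥ x = c i • x) ∧
      ∀ B : Matrix (Fin (homRank M)) (Fin (homRank M)) k,
        (∀ i, Commute B ((opMat i).map (Int.cast : ℤ → k))) → ∀ x ∈ V, B *ᵥ x ∈ V := by
  let V : Submodule k (Fin (homRank M) → k) :=
    { carrier := {x | ∀ i, (opMat i).map (Int.cast : ℤ → k) *ᵥ x = c i • x}
      add_mem' := fun {x y} hx hy i => by rw [Matrix.mulVec_add, hx i, hy i, smul_add]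
      zero_mem' := fun i => by simp
      smul_mem' := fun r x hx i => by rw [Matrix.mulVec_smul, hx i, smul_comm] }
  refine ⟨V, fun hbot => ?_, fun i x hx => hx i, fun B hB x hx i => ?_⟩
  · let x : Fin (homRank M) → k := fun b => v (Additive.ofMul (homPts M b))
    have hx : x ∈ V := fun i => by
      ext b
      have h := goodOp_apply_homPts (S := k) i hv b
      rw [hc i, AddMonoidHom.smul_apply] at h
      rw [Pi.smul_apply]
      refine Eq.trans ?_ h.symm
      simp [Matrix.mulVec, dotProduct, x]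
    rw [hbot, Submodule.mem_bot] at hx
    exact hv0 (eq_of_homPts hv (zero_mem _) fun b => congrFun hx b)
  · rw [Matrix.mulVec_mulVec, ← (hB i).eq, ← Matrix.mulVec_mulVec, hx i, Matrix.mulVec_smul]

variable [IsAlgClosed k] {ε : DirichletCharacter ℂ N} {a : ℕ → ℂ}

/-- The residual representation from a module with an eigenspace on which the Frobenius elements
satisfy their quadratic equations. -/
def resRepOfQuadratic {ℓ : ℕ} (φ : ZBar →+* k) (hφ : φ ℓ = 0)
    (ρ : GQ →* Matrix (Fin 2) (Fin 2) k) (hlev : GaloisFactorsThroughFiniteLevel ρ)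
    (hshape : Submodule.span k (Set.range ρ) = ⊤ ∨ ∀ g, ρ g 0 1 = 0 ∧ ρ g 1 0 = 0)
    (hI : ∀ p : ℕ, p.Prime → ¬ p ∣ N → p ≠ ℓ → ∀ A : ValuationSubring QBar,
      A.LiesOverPrime p → ∀ σ ∈ A.inertiaSubgroupIn ℚ, ρ σ = 1)
    (hF : ∀ p : ℕ, p.Prime → ¬ p ∣ N → p ≠ ℓ → ∀ A : ValuationSubring QBar,
      A.LiesOverPrime p → ∀ σ : GQ, A.IsFrobeniusAt σ p → ∀ x y : ZBar, (x : ℂ) = a p →
      (y : ℂ) = ε (p : ZMod N) → (ρ σ).trace = φ x ∧ (ρ σ).det = φ y) : ResRep ε a ℓ :=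
  { k := k, φ := φ, map_eq_zero := hφ, ρ := ρ, finite_level := hlev, shape := hshape,
    inertia := hI, frobenius := hF }

theorem nonempty_resRep {ℓ : ℕ} (hℓ : ℓ.Prime) (h2 : (2 : k) ≠ 0) (φ : ZBar →+* k)
    (hφ : φ ℓ = 0) (av : ℕ → ZBar) (hav : ∀ n, (av n : ℂ) = a n) {n : Type} [Fintype n]
    [DecidableEq n] (ρ : GQ →* Matrix n n k) (hlev : GaloisFactorsThroughFiniteLevel ρ)
    (V : Submodule k (n → k)) (hV : V ≠ ⊥) (hinv : ∀ g, ∀ x ∈ V, ρ g *ᵥ x ∈ V)
    (hI : ∀ p : ℕ, p.Prime → ¬ p ∣ N → p ≠ ℓ → ∀ A : ValuationSubring QBar,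
      A.LiesOverPrime p → ∀ σ ∈ A.inertiaSubgroupIn ℚ, ρ σ = 1)
    (hF : ∀ p : ℕ, p.Prime → ¬ p ∣ N → p ≠ ℓ → ∀ A : ValuationSubring QBar,
      A.LiesOverPrime p → ∀ σ : GQ, A.IsFrobeniusAt σ p → ∀ x ∈ V,
        ρ σ *ᵥ (ρ σ *ᵥ x) - φ (av p) • (ρ σ *ᵥ x) + epsChar ε φ σ • x = 0) :
    Nonempty (ResRep ε a ℓ) := by
  classical
  obtain ⟨d, σ, ι, hd, hι, hιV, hισ, hspan⟩ := exists_constituent ρ V hV hinv
  set χ := epsChar ε φ
  have hker : ∀ g, ρ g = 1 → σ g = 1 := fun g hg => Matrix.toLin'.injective (LinearMap.ext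
    fun x => hι (by rw [Matrix.toLin'_apply, Matrix.toLin'_apply, hισ, hg, Matrix.one_mulVec,
      Matrix.one_mulVec]))
  have hquad : ∀ g (t c : k), (∀ x ∈ V, ρ g *ᵥ (ρ g *ᵥ x) - t • (ρ g *ᵥ x) + c • x = 0) →
      σ g + c • σ g⁻¹ = t • 1 := by
    intro g t c h
    have h0 : σ g * σ g - t • σ g + c • 1 = 0 := Matrix.toLin'.injective (LinearMap.ext fun x =>
      hι (by
        rw [map_zero, LinearMap.zero_apply, map_zero, Matrix.toLin'_apply, Matrix.add_mulVec,
          Matrix.sub_mulVec, ← Matrix.mulVec_mulVec, Matrix.smul_mulVec, Matrix.smul_mulVec,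
          Matrix.one_mulVec, map_add, map_sub, map_smul, map_smul, hισ, hισ]
        exact h _ (hιV x)))
    have hinv' : σ g * σ g⁻¹ = 1 := by rw [← map_mul, mul_inv_cancel, map_one]
    have := congrArg (· * σ g⁻¹) h0
    simp only [add_mul, sub_mul, mul_assoc, smul_mul_assoc, hinv', mul_one, one_mul,
      zero_mul] at this
    rw [← sub_eq_zero]
    linear_combination (norm := abel) this
  have hfrob : ∀ p : ℕ, p.Prime → ¬ p ∣ N → p ≠ ℓ → ∀ A : ValuationSubring QBar,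
      A.LiesOverPrime p → ∀ s : GQ, A.IsFrobeniusAt s p →
      σ s + χ s • σ s⁻¹ = φ (av p) • 1 := fun p hp hpN hpℓ A hA s hs =>
    hquad s _ _ (hF p hp hpN hpℓ A hA s hs)
  have hscalar : ∀ g, ∃ t : k, σ g + χ g • σ g⁻¹ = t • 1 := by
    intro g
    obtain ⟨L₁, hL₁, hL₁'⟩ := hlev
    obtain ⟨L₂, hL₂, hL₂'⟩ := cycN_finite_level N
    obtain ⟨p, hp, hpS, A, hA, s, hs, heq⟩ := Chebotarev.exists_frobenius_eq
      (ρ.prod (cycN N)) (L₁ ⊔ L₂) (fun s hs => by
        have e1 := hL₁' s fun x hx => hs x (le_sup_left (b := L₂) hx)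
        have e2 := hL₂' s fun x hx => hs x (le_sup_right (a := L₁) hx)
        rw [MonoidHom.prod_apply, e1, e2]; rfl) g (insert ℓ N.primeFactors)
    simp only [Finset.mem_insert, not_or, Nat.mem_primeFactors] at hpS
    have hpN : ¬ p ∣ N := fun h => hpS.2 ⟨hp, h, NeZero.ne N⟩
    simp only [MonoidHom.prod_apply, Prod.mk.injEq] at heq
    obtain ⟨hρ, hcyc⟩ := heq
    have hχ : χ s = χ g := by
      show φ _ = φ _
      exact congrArg φ (Subtype.ext (congrArg (fun u : (ZMod N)ˣ => ε (u : ZMod N)) hcyc))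
    refine ⟨φ (av p), ?_⟩
    refine hquad g _ _ fun x hx => ?_
    have := hF p hp hpN hpS.1 A hA s hs x hx
    rwa [hρ, hχ] at this
  have hχm : ∀ g g', χ (g * g') = χ g * χ g' := map_mul χ
  have hd2 := card_le_two h2 hspan hχm hscalar
  rw [Fintype.card_fin] at hd2
  obtain ⟨L, hL, hL'⟩ := hlev
  rcases (show d = 2 ∨ d = 1 by omega) with rfl | rfl
  · refine ⟨resRepOfQuadratic φ hφ σ ⟨L, hL, fun g hg => hker g (hL' g hg)⟩ (Or.inl hspan)
      (fun p hp hpN hpℓ A hA g hg => hker g (hI p hp hpN hpℓ A hA g hg))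
      fun p hp hpN hpℓ A hA g hg x y hx hy => ?_⟩
    obtain ⟨htr, hdet⟩ := trace_det_eq h2 hspan hχm hscalar g
    rw [hdet, ← epsChar_frobenius hp hpN hA hg hy]
    refine ⟨?_, rfl⟩
    have h := htr.symm.trans (hfrob p hp hpN hpℓ A hA g hg)
    have h00 := congrFun (congrFun h 0) 0
    simp only [Matrix.smul_apply, Matrix.one_apply_eq, smul_eq_mul, mul_one] at h00
    rw [h00]
    exact congrArg φ (Subtype.ext ((hav p).trans hx.symm))
  · let η : GQ →* k :=
      { toFun := fun g => σ g 0 0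
        map_one' := by simp
        map_mul' := fun g h => by simp [Matrix.mul_apply] }
    have hη : ∀ g, η g * η g⁻¹ = 1 := fun g => by rw [← map_mul, mul_inv_cancel, map_one]
    let τ : GQ →* Matrix (Fin 2) (Fin 2) k :=
      { toFun := fun g => Matrix.diagonal ![η g, χ g * η g⁻¹]
        map_one' := by
          rw [← Matrix.diagonal_one]
          congr 1
          funext i; fin_cases i <;> simp
        map_mul' := fun g h => by
          rw [Matrix.diagonal_mul_diagonal]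
          congr 1
          funext i
          fin_cases i
          · exact map_mul η g h
          · show χ (g * h) * η (g * h)⁻¹ = χ g * η g⁻¹ * (χ h * η h⁻¹)
            rw [_root_.mul_inv_rev, map_mul η, map_mul χ]
            ring }
    have hτ : ∀ g, σ g = 1 → χ g = 1 → τ g = 1 := fun g hg hχg => by
      have h1 : η g = 1 := by show σ g 0 0 = 1; rw [hg]; rfl
      have h2 : η g⁻¹ = 1 := by have := hη g; rwa [h1, one_mul] at this
      show Matrix.diagonal ![η g, χ g * η g⁻¹] = 1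
      rw [h1, h2, hχg, ← Matrix.diagonal_one]
      congr 1
      funext i; fin_cases i <;> simp
    obtain ⟨L₂, hL₂, hL₂'⟩ := cycN_finite_level N
    refine ⟨resRepOfQuadratic φ hφ τ ⟨L ⊔ L₂, inferInstance, fun g hg => ?_⟩ (Or.inr fun g => ?_)
      (fun p hp hpN hpℓ A hA g hg => hτ g (hker g (hI p hp hpN hpℓ A hA g hg))
        (epsChar_inertia hp hpN hA hg))
      fun p hp hpN hpℓ A hA g hg x y hx hy => ?_⟩
    · refine hτ g (hker g (hL' g fun x hx => hg x (le_sup_left (b := L₂) hx))) ?_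
      have := hL₂' g fun x hx => hg x (le_sup_right (a := L) hx)
      refine Eq.trans (congrArg φ (Subtype.ext ?_)) (map_one φ)
      simp [this]
    · show Matrix.diagonal _ 0 1 = 0 ∧ Matrix.diagonal _ 1 0 = 0
      simp
    · have h00 := congrFun (congrFun (hfrob p hp hpN hpℓ A hA g hg) 0) 0
      simp only [Matrix.add_apply, Matrix.smul_apply, Matrix.one_apply_eq, smul_eq_mul,
        mul_one] at h00
      obtain rfl : x = av p := Subtype.ext (hx.trans (hav p).symm)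
      rw [← epsChar_frobenius hp hpN hA hg hy]
      show (Matrix.diagonal _).trace = _ ∧ (Matrix.diagonal _).det = _
      rw [Matrix.trace_diagonal, Matrix.det_diagonal]
      simp only [Fin.sum_univ_two, Fin.prod_univ_two, Matrix.cons_val_zero, Matrix.cons_val_one]
      refine ⟨h00, ?_⟩
      show η g * (χ g * η g⁻¹) = χ g
      rw [mul_left_comm, hη, mul_one]

/-- The step from the congruent forms and the Galois modules to residual representations. -/
theorem residualRepsStep : ResidualRepsStep := by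
  intro N _ ε g hdep hform hgeo
  classical
  obtain ⟨S, hS⟩ := hform
  refine ⟨S ∪ Finset.range 7 ∪ N.primeFactors, fun ℓ hℓ hℓS => ?_⟩
  simp only [Finset.mem_union, Finset.mem_range, not_or, not_lt, Nat.mem_primeFactors] at hℓS
  obtain ⟨⟨hℓS, hℓ7⟩, hℓN⟩ := hℓS
  have hℓN : ¬ ℓ ∣ N := fun h => hℓN ⟨hℓ, h, NeZero.ne N⟩
  haveI : NeZero (N * ℓ) := ⟨Nat.mul_ne_zero (NeZero.ne N) hℓ.ne_zero⟩
  haveI := Fact.mk hℓ
  obtain ⟨k, _, φ, δ, f, b, hk, hφℓ, hneb, hb, hb1, hbg, hδ⟩ := hS ℓ hℓ hℓS hℓN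
  haveI := hk
  have hℓ0 : (ℓ : k) = 0 := by rw [← map_natCast φ]; exact hφℓ
  haveI : CharP k ℓ := (CharP.charP_iff_prime_eq_zero hℓ).2 hℓ0
  let av : ℕ → ZBar := fun n => ⟨qCoeff g n, isIntegral_coeff hdep n⟩
  have hba : ∀ n, φ (b n) = φ (av n) := fun n => hbg n (av n) rfl
  have hrec : ∀ p : ℕ, p.Prime → ¬ p ∣ N * ℓ → ∀ (n : ℕ) (y : ZBar),
      (y : ℂ) = δ (p : ZMod (N * ℓ)) →
      φ (b (p * n)) + p * φ y * (if p ∣ n then φ (b (n / p)) else 0) = φ (b p) * φ (b n) := by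
    intro p hp hpM n y hy
    let x : ZBar := ⟨ε (p : ZMod N), isIntegral_character ε _⟩
    rw [← hδ p hp hpM x y rfl hy, hba, hba, hba, hba]
    have e : av (p * n) + x * (if p ∣ n then av (n / p) else 0) = av p * av n := by
      refine Subtype.ext ?_
      have h := hdep.hecke p hp (fun h => hpM (h.mul_right ℓ)) n
      rw [Subalgebra.coe_add, Subalgebra.coe_mul, Subalgebra.coe_mul]
      refine Eq.trans ?_ h
      congr 2
      split_ifs <;> rfl
    have e2 := congrArg φ e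
    rw [map_add, map_mul, map_mul] at e2
    rw [← e2]
    congr 2
    split_ifs
    · rfl
    · rw [map_zero]
  obtain ⟨v, hv0, hv, hvT, hvD⟩ := exists_periodClass hneb hℓ φ hφℓ b hb hb1 hrec
  let dZ : (ZMod (N * ℓ))ˣ → ZBar := fun u => ⟨δ (u : ZMod (N * ℓ)), isIntegral_character δ _⟩
  let c : GoodOp (N * ℓ) → k
    | .inl p => φ (b p.1)
    | .inr u => φ (dZ u)
  have hvc : ∀ i, goodOp k i v = c i • v := by
    rintro (p | u)
    · haveI := Fact.mk p.2.1
      exact hvT p.1 p.2.2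
    · exact hvD u (dZ u) rfl
  obtain ⟨V, hV0, hVeig, hVinv⟩ := exists_eigenspace (ℓ := ℓ) hv0 hv c hvc
  obtain ⟨ρ₀, hlev, hcomm, hloc⟩ := hgeo ℓ hℓ hℓ7
  let π : ZMod ℓ →+* k := ZMod.castHom dvd_rfl k
  let ρ : GQ →* Matrix (Fin (homRank (N * ℓ))) (Fin (homRank (N * ℓ))) k :=
    π.mapMatrix.toMonoidHom.comp ρ₀
  have hop : ∀ i, π.mapMatrix ((opMat i).map (Int.cast : ℤ → ZMod ℓ)) =
      (opMat (M := N * ℓ) i).map (Int.cast : ℤ → k) := fun i => by
    ext s t; simp
  refine nonempty_resRep hℓ ?_ φ hφℓ av (fun n => rfl) ρ ?_ V hV0 (fun s x hx => ?_) ?_ ?_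
  · intro h
    have h2 : ((2 : ℕ) : k) = 0 := by exact_mod_cast h
    rw [CharP.cast_eq_zero_iff k ℓ] at h2
    have := Nat.le_of_dvd two_pos h2
    omega
  · obtain ⟨L, hL, hL'⟩ := hlev
    exact ⟨L, hL, fun s hs => by
      show π.mapMatrix (ρ₀ s) = 1
      rw [hL' s hs, map_one]⟩
  · refine hVinv (ρ s) (fun i => ?_) x hx
    rw [← hop i]
    exact (hcomm i s).map π.mapMatrix
  · intro p hp hpN hpℓ A hA s hs
    show π.mapMatrix (ρ₀ s) = 1
    have hpM : ¬ p ∣ N * ℓ := fun h => (hp.dvd_mul.1 h).elim hpN fun h' =>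
      hpℓ ((Nat.prime_dvd_prime_iff_eq hp hℓ).1 h')
    rw [(hloc p hp hpM hpℓ A hA).1 s hs, map_one]
  · intro p hp hpN hpℓ A hA s hs x hx
    have hpM : ¬ p ∣ N * ℓ := fun h => (hp.dvd_mul.1 h).elim hpN fun h' =>
      hpℓ ((Nat.prime_dvd_prime_iff_eq hp hℓ).1 h')
    set T := (opMat (M := N * ℓ) (.inl ⟨p, hp, hpM⟩)).map (Int.cast : ℤ → k)
    set D := (opMat (M := N * ℓ) (.inr (primeUnit (N * ℓ) p hp hpM))).map (Int.cast : ℤ → k)
    have h0 : ρ s * ρ s - T * ρ s + (p : k) • D = 0 := by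
      have h := congrArg π.mapMatrix ((hloc p hp hpM hpℓ A hA).2 s hs)
      rw [map_add, map_sub, map_mul, map_mul, map_zero, hop] at h
      refine Eq.trans ?_ h
      congr 1
      ext i j
      simp [D]
    have hxV : ρ s *ᵥ x ∈ V := hVinv (ρ s) (fun i => by
      rw [← hop i]; exact (hcomm i s).map π.mapMatrix) x hx
    have h1 := congrArg (fun B => B *ᵥ x) h0
    rw [Matrix.add_mulVec, Matrix.sub_mulVec, ← Matrix.mulVec_mulVec, ← Matrix.mulVec_mulVec,
      Matrix.smul_mulVec, hVeig _ _ hxV, hVeig _ _ hx, Matrix.zero_mulVec, smul_smul] at h1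
    refine Eq.trans ?_ h1
    congr 2
    · exact congrArg (· • (ρ s *ᵥ x)) (hba p).symm
    · rw [epsChar_frobenius hp hpN hA hs (y := ⟨ε (p : ZMod N), isIntegral_character ε _⟩) rfl]
      refine hδ p hp hpM _ (dZ (primeUnit (N * ℓ) p hp hpM)) rfl ?_
      show δ _ = _
      rw [primeUnit, ZMod.coe_unitOfCoprime]

end Fermat.Agent.DeligneSerre
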